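import Fermat.Agent.S48.Hecke.QExp

/-!
# S48-HECKE : `q`-expansions on the level of functions, part 2

Mathlib: `UpperHalfPlane.hasSum_qExpansion`, `UpperHalfPlane.qExpansion_eq_zero_iff`,
`UpperHalfPlane.qExpansion_coeff_zero`, `UpperHalfPlane.analyticAt_cuspFunction_zero` (function level).
-/

set_option autoImplicit false

open CongruenceSubgroup UpperHalfPlane ModularForm ModularFormClass
open scoped MatrixGroups ModularForm Manifold

namespace Fermat.Agent.S48.Hecke

variable {k : ℤ} {φ ψ : ℍ → ℂ}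

/-- a function with a `q`-expansion is determined by it. -/
theorem IsQ.ext (h : IsQ φ) (h' : IsQ ψ) (e : ∀ n, qCoeff φ n = qCoeff ψ n) : φ = ψ := by
  have hs := h.sub h'
  have h0 : qExpansion 1 (φ - ψ) = 0 := by
    ext n
    have := qCoeff_sub h h' n
    rw [e n, sub_self] at this
    simpa [qCoeff] using this
  have := (qExpansion_eq_zero_iff one_pos (by simpa using hs.per) hs.holo hs.bdd).1 h0
  exact sub_eq_zero.1 this

/-- `U_p V_p = p^(k-1)`.  [`IsQ.ext`.] -/
theorem heckeU_V (h : IsQ φ) (k : ℤ) {p : ℕ} (hp : p ≠ 0) :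
    heckeU k p (V k p φ) = (p : ℂ) ^ (k - 1) • φ := by
  refine IsQ.ext ((h.V k p).heckeU k p) (h.smul _) fun n => ?_
  rw [qCoeff_heckeU (h.V k p) k hp, qCoeff_V h k hp, if_pos (Dvd.intro_left n rfl),
    Nat.mul_div_cancel _ (Nat.pos_of_ne_zero hp), qCoeff_smul _ h]

/-- [`UpperHalfPlane.qExpansion_coeff_zero`, `IsZeroAtImInfty.valueAtInfty_eq_zero`.] -/
theorem qCoeff_zero_of_isZeroAtImInfty (h : IsQ φ) (h0 : IsZeroAtImInfty φ) : qCoeff φ 0 = 0 := by
  simp only [qCoeff]
  rw [qExpansion_coeff_zero one_pos h.analytic (by simpa using h.per), h0.valueAtInfty_eq_zero]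

/-- the `q`-expansion of `V^n φ` starts at `q^(p^n)` if `a_0(φ) = 0`. [induction on `n`
generalising `m`; `Function.iterate_succ_apply'`.] -/
theorem qCoeff_iterate_V (h : IsQ φ) (h0 : qCoeff φ 0 = 0) (k : ℤ) {p : ℕ} (hp : p ≠ 0) (n m : ℕ)
    (hm : m < p ^ n) : IsQ ((V k p)^[n] φ) ∧ qCoeff ((V k p)^[n] φ) m = 0 := by
  induction n generalizing m with
  | zero =>
    have : m = 0 := by simpa using hm
    subst this
    exact ⟨h, h0⟩
  | succ n ih =>
    have hQ : IsQ ((V k p)^[n] φ) := (ih 0 (Nat.pow_pos (Nat.pos_of_ne_zero hp))).1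
    rw [Function.iterate_succ_apply']
    refine ⟨hQ.V k p, ?_⟩
    rw [qCoeff_V hQ k hp]
    split_ifs with hd
    · have hlt : m / p < p ^ n := by
        rw [Nat.div_lt_iff_lt_mul (Nat.pos_of_ne_zero hp)]
        rwa [pow_succ] at hm
      rw [(ih _ hlt).2, mul_zero]
    · rfl

end Fermat.Agent.S48.Hecke
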