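import Fermat.Agent.S48.Hecke.DeplOps
import Fermat.Agent.S48.Hecke.QExp2

/-!
# S48-HECKE : `N`-depletion, by iterating `φ ↦ φ - V_q U_q φ` over the primes `q ∣ N` (weight one)
-/

set_option autoImplicit false

open CongruenceSubgroup UpperHalfPlane ModularForm ModularFormClass
open scoped MatrixGroups ModularForm Manifold

namespace Fermat.Agent.S48.Hecke

variable {N : ℕ} {ε : ZMod N → ℂ} {M : ℕ} {φ : ℍ → ℂ}

/-- one step.  [`IsCuspFn.sub/.V/.heckeU`; `NebZ.sub/.mono/.V/.heckeU`; `IsQ φ` from `NebZ.inv1`,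
`Inv1.periodic` (i.e. `IsS.isQ`); `qCoeff_sub`, `qCoeff_V` (`q ^ (1 - 1) = 1`), `qCoeff_heckeU`,
`Nat.div_mul_cancel`.] -/
theorem depl_step (hNM : N ∣ M) (h1 : ε 1 = 1) {q : ℕ} (hq0 : q ≠ 0) (hq : q ∣ M)
    (hc : IsCuspFn 1 φ) (hn : NebZ N ε M 1 φ) :
    IsCuspFn 1 (φ - V 1 q (heckeU 1 q φ)) ∧ NebZ N ε (M * q) 1 (φ - V 1 q (heckeU 1 q φ)) ∧
      ∀ n : ℕ, qCoeff (φ - V 1 q (heckeU 1 q φ)) n = if q ∣ n then 0 else qCoeff φ n := by
  have hQ : IsQ φ := (IsS.mk hc (hn.inv1 hNM h1)).isQ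
  refine ⟨hc.sub ((hc.heckeU q).V q),
    (hn.mono (Dvd.intro q rfl)).sub ((hn.heckeU hNM hq0 hq).V hq0), fun n => ?_⟩
  rw [qCoeff_sub hQ ((hQ.heckeU 1 q).V 1 q), qCoeff_V (hQ.heckeU 1 q) 1 hq0]
  split_ifs with hqn
  · rw [qCoeff_heckeU hQ 1 hq0, Nat.div_mul_cancel hqn]
    simp
  · rw [sub_zero]

/-- induction on the set `P` of primes.  [`Finset.induction_on`; `M ↦ M * q`.] -/
theorem depl_finset (hN : N ≠ 0) (h1 : ε 1 = 1) (hc : IsCuspFn 1 φ) (hn : NebZ N ε N 1 φ)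
    (P : Finset ℕ) (hP : ∀ q ∈ P, q.Prime ∧ q ∣ N) :
    ∃ (M : ℕ) (ψ : ℍ → ℂ), N ∣ M ∧ M ≠ 0 ∧ (∀ p : ℕ, p.Prime → p ∣ M → p ∣ N) ∧
      IsCuspFn 1 ψ ∧ NebZ N ε M 1 ψ ∧
      ∀ n : ℕ, qCoeff ψ n = if ∀ q ∈ P, ¬ q ∣ n then qCoeff φ n else 0 := by
  classical
  induction P using Finset.induction_on with
  | empty => exact ⟨N, φ, dvd_rfl, hN, fun p _ h => h, hc, hn, fun n => by simp⟩
  | insert q P hqP ih =>
    obtain ⟨M, ψ, hNM, hM0, hMp, hcψ, hnψ, hcoef⟩ :=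
      ih (fun q' hq' => hP q' (Finset.mem_insert_of_mem hq'))
    obtain ⟨hqp, hqN⟩ := hP q (Finset.mem_insert_self q P)
    obtain ⟨s1, s2, s3⟩ := depl_step hNM h1 hqp.ne_zero (hqN.trans hNM) hcψ hnψ
    refine ⟨M * q, ψ - V 1 q (heckeU 1 q ψ), hNM.mul_right q, mul_ne_zero hM0 hqp.ne_zero, ?_,
      s1, s2, fun n => ?_⟩
    · intro p hp hpd
      rcases (Nat.Prime.dvd_mul hp).1 hpd with h | h
      · exact hMp p hp h
      · rw [(Nat.prime_dvd_prime_iff_eq hp hqp).1 h]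
        exact hqN
    · rw [s3, hcoef]
      by_cases hqn : q ∣ n
      · rw [if_pos hqn, if_neg]
        intro hall
        exact hall q (Finset.mem_insert_self q P) hqn
      · rw [if_neg hqn]
        simp only [Finset.forall_mem_insert, hqn, not_false_eq_true, true_and]

/-- [`Nat.Coprime n N ↔` no prime divides both (`Nat.Prime.not_coprime_iff_dvd`,
`Nat.mem_primeFactors`).] -/
theorem coprime_iff_forall_primeFactors (hN : N ≠ 0) (n : ℕ) :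
    n.Coprime N ↔ ∀ q ∈ N.primeFactors, ¬ q ∣ n := by
  rw [← not_iff_not, Nat.Prime.not_coprime_iff_dvd]
  push Not
  constructor
  · rintro ⟨p, hp, hpn, hpN⟩
    exact ⟨p, Nat.mem_primeFactors.2 ⟨hp, hpN, hN⟩, hpn⟩
  · rintro ⟨q, hq, hqn⟩
    obtain ⟨hp, hqN, -⟩ := Nat.mem_primeFactors.1 hq
    exact ⟨q, hp, hqn, hqN⟩

/-- [`depl_finset` with `P = N.primeFactors`; `HasNeb N 1 ε f` is `NebZ N ε N 1 f` by definition;
`IsS.exists_cuspForm` (with `NeZero M`, `NebZ.inv1`); `map_intCast` for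
`ZMod.castHom _ (ZMod N) ((d : ℤ) : ZMod M) = (d : ZMod N)`; `isS_coe`.] -/
theorem depl : DeplStatement := by
  intro N _ ε f hf
  have hS := isS_coe f
  obtain ⟨M, ψ, hNM, hM0, hMp, hcψ, hnψ, hcoef⟩ :=
    depl_finset (NeZero.ne N) (map_one ε) hS.cusp hf N.primeFactors
      (fun q hq => ⟨(Nat.mem_primeFactors.1 hq).1, (Nat.mem_primeFactors.1 hq).2.1⟩)
  have : NeZero M := ⟨hM0⟩
  obtain ⟨f', hf'⟩ := (IsS.mk hcψ (hnψ.inv1 hNM (map_one ε))).exists_cuspForm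
  refine ⟨M, hNM, f', hM0, hMp, ?_, fun n => ?_⟩
  · intro γ hγ
    rw [hf', hnψ γ hγ]
    simp only [map_intCast]
  · rw [hf', hcoef]
    by_cases h : n.Coprime N
    · rw [if_pos h, if_pos ((coprime_iff_forall_primeFactors (NeZero.ne N) n).1 h)]
    · rw [if_neg h, if_neg (fun h' => h ((coprime_iff_forall_primeFactors (NeZero.ne N) n).2 h'))]

end Fermat.Agent.S48.Hecke
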