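import Fermat.Agent.S48.Hecke.Key

/-!
# S48-HECKE : the nebentypus lemma
-/

set_option autoImplicit false

open CongruenceSubgroup UpperHalfPlane ModularForm ModularFormClass
open scoped MatrixGroups ModularForm Manifold

namespace Fermat.Agent.S48.Hecke

variable {N : ℕ} [NeZero N] {ε : DirichletCharacter ℂ N} {f : CuspForm (Gamma1 N) 1}

/-- the formal Hecke relation as an identity of functions.  [`IsQ.ext`, `qCoeff_heckeU`, `qCoeff_V`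
(`k = 1`: `p ^ (1 - 1) = 1`), `qCoeff_add`, `qCoeff_smul`; `mul_comm n p`.] -/
theorem hecke_fun (H : Hyp N ε f) {p : ℕ} (hp : p.Prime) (hpN : ¬ p ∣ N) :
    heckeU 1 p f + ε (p : ZMod N) • V 1 p f = qCoeff f p • (f : ℍ → ℂ) := by
  have hQ : IsQ (f : ℍ → ℂ) := (isS_coe f).isQ
  refine IsQ.ext ((hQ.heckeU 1 p).add ((hQ.V 1 p).smul _)) (hQ.smul _) fun n => ?_
  rw [qCoeff_add (hQ.heckeU 1 p) ((hQ.V 1 p).smul _), qCoeff_smul _ (hQ.V 1 p),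
    qCoeff_smul _ hQ, qCoeff_heckeU hQ 1 hp.ne_zero, qCoeff_V hQ 1 hp.ne_zero, mul_comm n p,
    ← H.hecke p hp hpN n, sub_self, zpow_zero]
  simp only [one_mul]

/-- [`h = f ∣ σ - ε(p) f`; `V h = T f - a_p f` by `hecke_fun`, `V_sub`, `V_smul`; `IsS.T`; `key`.] -/
theorem neb_prime (H : Hyp N ε f) {p : ℕ} (hp : p.Prime) (hpN : ¬ p ∣ N) {σ : SL(2, ℤ)}
    (hσ : σ ∈ Gamma0 N) (hσp : ((σ 1 1 : ℤ) : ZMod N) = (p : ZMod N)) :
    (f : ℍ → ℂ) ∣[(1 : ℤ)] σ = ε (p : ZMod N) • (f : ℍ → ℂ) := by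
  have hS : IsS N 1 (f : ℍ → ℂ) := isS_coe f
  have hh : IsS N 1 ((f : ℍ → ℂ) ∣[(1 : ℤ)] σ - ε (p : ZMod N) • (f : ℍ → ℂ)) :=
    (hS.slash hσ).sub (hS.smul _)
  have hV : V 1 p ((f : ℍ → ℂ) ∣[(1 : ℤ)] σ - ε (p : ZMod N) • (f : ℍ → ℂ)) =
      T 1 p σ f - qCoeff f p • (f : ℍ → ℂ) := by
    rw [V_sub, V_smul, ← hecke_fun H hp hpN, Hecke.T]
    abel
  have hVS : IsS N 1 (V 1 p ((f : ℍ → ℂ) ∣[(1 : ℤ)] σ - ε (p : ZMod N) • (f : ℍ → ℂ))) := by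
    rw [hV]
    exact (hS.T hp hpN hσ hσp).sub (hS.smul _)
  exact sub_eq_zero.1 (key hp hpN hh hVS)

/-- [`d = γ 1 1` is a unit mod `N` (`Gamma0_apply_mul_apply`); Dirichlet:
`Nat.forall_exists_prime_gt_and_eq_mod` gives a prime `p > N`, `p ≡ d`; `neb_prime` with `σ = γ`.] -/
theorem neb : NebStatement := by
  intro N _ ε f H γ hγ
  have hu : IsUnit (((γ 1 1 : ℤ)) : ZMod N) :=
    IsUnit.of_mul_eq_one_right _ (Gamma0_apply_mul_apply hγ)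
  obtain ⟨p, hpN, hp, hpd⟩ := Nat.forall_exists_prime_gt_and_eq_mod hu N
  have hpN' : ¬ p ∣ N := fun h =>
    absurd (Nat.le_of_dvd (Nat.pos_of_ne_zero (NeZero.ne N)) h) (not_le.2 hpN)
  rw [neb_prime H hp hpN' hγ hpd.symm, hpd]

end Fermat.Agent.S48.Hecke
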