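import Fermat.Agent.S48.Hecke.Defs
import Fermat.Prelude.Sol.S_CuspFormClass_isZeroAt_heckeT

/-!
# S48-HECKE : closure properties of `IsCuspFn`, bundling
-/

set_option autoImplicit false

open CongruenceSubgroup UpperHalfPlane ModularForm
open scoped MatrixGroups ModularForm Manifold

namespace Fermat.Agent.S48.Hecke

variable {N : ℕ} {k : ℤ} {φ ψ : ℍ → ℂ}

theorem IsCuspFn.add (h : IsCuspFn k φ) (h' : IsCuspFn k ψ) : IsCuspFn k (φ + ψ) :=
  ⟨h.holo.add h'.holo, fun c hc => (h.zero c hc).add (h'.zero c hc)⟩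

/-- [`ModularForm.smul_slash`; `IsZeroAtImInfty` is stable under multiplication by a constant, see
the instance `CuspForm.IsGLPos.instSMul` of Mathlib.] -/
theorem IsCuspFn.smul (c : ℂ) (h : IsCuspFn k φ) : IsCuspFn k (c • φ) := by
  refine ⟨h.holo.const_smul c, fun x hx g hg => ?_⟩
  rw [ModularForm.smul_slash]
  exact (h.zero x hx g hg).smul _

theorem IsCuspFn.neg (h : IsCuspFn k φ) : IsCuspFn k (-φ) := by
  have := h.smul (-1)
  simpa using this

theorem IsCuspFn.sub (h : IsCuspFn k φ) (h' : IsCuspFn k ψ) : IsCuspFn k (φ - ψ) := by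
  rw [sub_eq_add_neg]
  exact h.add h'.neg

theorem isCuspFn_zero : IsCuspFn k (0 : ℍ → ℂ) := by
  refine ⟨fun _ => mdifferentiableAt_const, fun x _ g _ => ?_⟩
  rw [SlashAction.zero_slash]
  exact Filter.zero_zeroAtFilter _

theorem IsCuspFn.sum {ι : Type*} (s : Finset ι) (F : ι → ℍ → ℂ)
    (h : ∀ i ∈ s, IsCuspFn k (F i)) : IsCuspFn k (∑ i ∈ s, F i) := by
  classical
  induction s using Finset.induction_on with
  | empty => simpa using isCuspFn_zero
  | insert a s ha ih =>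
    rw [Finset.sum_insert ha]
    exact (h a (Finset.mem_insert_self a s)).add (ih fun i hi => h i (Finset.mem_insert_of_mem hi))

/-- [`MDifferentiable.slash`; `OnePoint.IsZeroAt.smul_iff`, `isCusp_SL2Z_iff`, `OnePoint.map_smul`:
copy `isCusp_ratCast_smul`, `isZeroAt_slash_ratCast` of
`Fermat/Prelude/Sol/S_CuspFormClass_isZeroAt_heckeT.lean`.] -/
theorem IsCuspFn.slash_rat (h : IsCuspFn k φ) (g : GL (Fin 2) ℚ) :
    IsCuspFn k (φ ∣[k] (Matrix.GeneralLinearGroup.map (Rat.castHom ℝ) g)) := by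
  refine ⟨h.holo.slash k _, fun c hc => OnePoint.IsZeroAt.smul_iff.mp (h.zero _ ?_)⟩
  rw [isCusp_SL2Z_iff] at hc ⊢
  obtain ⟨c, rfl⟩ := hc
  exact ⟨g • c, by rw [← Rat.coe_castHom, OnePoint.map_smul]⟩

theorem IsCuspFn.slash_SL (h : IsCuspFn k φ) (γ : SL(2, ℤ)) : IsCuspFn k (φ ∣[k] γ) := by
  have := h.slash_rat (Matrix.SpecialLinearGroup.mapGL ℚ γ)
  have e : Matrix.GeneralLinearGroup.map (Rat.castHom ℝ) (Matrix.SpecialLinearGroup.mapGL ℚ γ) =
      Matrix.SpecialLinearGroup.mapGL ℝ γ := Matrix.SpecialLinearGroup.map_mapGL γ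
  rw [e] at this
  exact this

/-- [`exists_heckeMatrix_eq_map` of the same Prelude file.] -/
theorem IsCuspFn.heckeU (h : IsCuspFn k φ) (p : ℕ) : IsCuspFn k (heckeU k p φ) := by
  rw [heckeU_def]
  refine IsCuspFn.sum _ _ fun j _ => ?_
  obtain ⟨g, hg⟩ :=
    P2MW.S_CuspFormClass_isZeroAt_heckeT.ModularForm.S06W2.exists_heckeMatrix_eq_map p j
  rw [hg]
  exact h.slash_rat g

theorem IsCuspFn.V (h : IsCuspFn k φ) (p : ℕ) : IsCuspFn k (V k p φ) := by
  obtain ⟨g, hg⟩ :=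
    P2MW.S_CuspFormClass_isZeroAt_heckeT.ModularForm.S06W2.exists_heckeDiagMatrix_eq_map p
  rw [Hecke.V, hg]
  exact h.slash_rat g

theorem IsCuspFn.isZeroAtImInfty (h : IsCuspFn k φ) : IsZeroAtImInfty φ := by
  refine OnePoint.isZeroAt_infty_iff.mp (h.zero _ ?_)
  rw [isCusp_SL2Z_iff]
  exact ⟨OnePoint.infty, OnePoint.map_infty _⟩

/-- a cusp form on `Γ₁(N)` is in `IsS`.  [`Subgroup.IsArithmetic.isCusp_iff_isCusp_SL2Z`.] -/
theorem isS_coe [NeZero N] (f : CuspForm (Gamma1 N) k) : IsS N k f := by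
  refine ⟨⟨f.holo', fun c hc => f.zero_at_cusps' ?_⟩, fun γ hγ => ?_⟩
  · rwa [Subgroup.IsArithmetic.isCusp_iff_isCusp_SL2Z]
  · exact f.slash_action_eq' _ (Subgroup.mem_map_of_mem _ hγ)

theorem IsS.exists_cuspForm [NeZero N] (h : IsS N k φ) :
    ∃ f : CuspForm (Gamma1 N) k, ⇑f = φ := by
  refine ⟨{ toFun := φ
            slash_action_eq' := ?_
            holo' := h.cusp.holo
            zero_at_cusps' := fun {c} hc => h.cusp.zero c ?_ }, rfl⟩
  · rintro _ ⟨γ, hγ, rfl⟩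
    exact h.inv γ hγ
  · rwa [Subgroup.IsArithmetic.isCusp_iff_isCusp_SL2Z] at hc

end Fermat.Agent.S48.Hecke
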