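import Fermat.Agent.S48.Hecke.Defs
import Fermat.Prelude.Sol.S_ModularForm_heckeT_slash_eq_self_of_mem_Gamma0

/-!
# S48-HECKE : the matrix identities behind `T_p`, `U_p`, `V_p`, keeping track of the lower right entry

PORT of `Fermat/Prelude/Sol/S_ModularForm_heckeT_slash_eq_self_of_mem_Gamma0.lean`
(namespace `P2MW.S_ModularForm_heckeT_slash_eq_self_of_mem_Gamma0.ModularForm.HeckeSlashInvariance`,
abbreviated `HSI` below): copy the proofs, the witnesses `g'` are the same, the extra conjunct is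
`rfl` or a one-line computation.  The definitions `HSI.heckeRep`, `HSI.redMatrix`, `HSI.affinePerm`
and the lemmas about them are used as they are.
-/

set_option autoImplicit false

open CongruenceSubgroup UpperHalfPlane ModularForm Matrix.SpecialLinearGroup
open scoped MatrixGroups ModularForm Manifold OnePoint
open P2MW.S_ModularForm_heckeT_slash_eq_self_of_mem_Gamma0.ModularForm.HeckeSlashInvariance

namespace Fermat.Agent.S48.Hecke

section commutation

variable {p : ℕ} (hp : p ≠ 0)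
include hp

theorem hm_mul_of_eq (g : SL(2, ℤ)) (j j' : ℕ) (e : ℤ)
    (he : g 0 1 + j * g 1 1 = j' * (g 0 0 + j * g 1 0) + p * e) :
    ∃ g' : SL(2, ℤ), g' 1 0 = p * g 1 0 ∧ g' 1 1 = g 1 1 - g 1 0 * j' ∧
      heckeMatrix p j * mapGL ℝ g = mapGL ℝ g' * heckeMatrix p j' := by
  have hdet := det_eq g
  refine ⟨⟨!![g 0 0 + j * g 1 0, e; p * g 1 0, g 1 1 - g 1 0 * j'], ?_⟩, rfl, rfl, ?_⟩
  · rw [Matrix.det_fin_two_of]
    linear_combination hdet + (g 1 0) * he
  · ext i j
    fin_cases i <;> fin_cases j <;>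
      simp [hp, Matrix.mul_apply, Fin.sum_univ_two]
    all_goals first
      | (have := congrArg (Int.cast : ℤ → ℝ) he; push_cast at this ⊢; linear_combination this)
      | (have := congrArg (Int.cast : ℤ → ℝ) he; push_cast at this ⊢; linear_combination -this)
      | ring1

theorem hm_mul_of_eq' (g : SL(2, ℤ)) (j : ℕ) (e : ℤ)
    (he : g 0 0 + j * g 1 0 = p * e) :
    ∃ g' : SL(2, ℤ), g' 1 0 = g 1 0 ∧ g' 1 1 = p * g 1 1 ∧
      heckeMatrix p j * mapGL ℝ g = mapGL ℝ g' * heckeDiagMatrix p := by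
  have hdet := det_eq g
  refine ⟨⟨!![e, g 0 1 + j * g 1 1; g 1 0, p * g 1 1], ?_⟩, rfl, rfl, ?_⟩
  · rw [Matrix.det_fin_two_of]
    linear_combination hdet - (g 1 1) * he
  · ext i j
    fin_cases i <;> fin_cases j <;>
      simp [hp, Matrix.mul_apply, Fin.sum_univ_two]
    all_goals first
      | (have := congrArg (Int.cast : ℤ → ℝ) he; push_cast at this ⊢; linear_combination this)
      | (have := congrArg (Int.cast : ℤ → ℝ) he; push_cast at this ⊢; linear_combination -this)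
      | ring1

theorem hd_mul_of_eq (g : SL(2, ℤ)) (j' : ℕ) (e : ℤ)
    (he : g 1 1 = g 1 0 * j' + p * e) :
    ∃ g' : SL(2, ℤ), g' 1 0 = g 1 0 ∧ g' 1 1 = e ∧
      heckeDiagMatrix p * mapGL ℝ g = mapGL ℝ g' * heckeMatrix p j' := by
  have hdet := det_eq g
  refine ⟨⟨!![p * g 0 0, g 0 1 - g 0 0 * j'; g 1 0, e], ?_⟩, rfl, rfl, ?_⟩
  · rw [Matrix.det_fin_two_of]
    linear_combination hdet - (g 0 0) * he
  · ext i j
    fin_cases i <;> fin_cases j <;>
      simp [hp, Matrix.mul_apply, Fin.sum_univ_two]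
    all_goals first
      | (have := congrArg (Int.cast : ℤ → ℝ) he; push_cast at this ⊢; linear_combination this)
      | (have := congrArg (Int.cast : ℤ → ℝ) he; push_cast at this ⊢; linear_combination -this)
      | ring1

theorem hd_mul_of_eq' (g : SL(2, ℤ)) (e : ℤ) (he : g 1 0 = p * e) :
    ∃ g' : SL(2, ℤ), g' 1 0 = e ∧ g' 1 1 = g 1 1 ∧
      heckeDiagMatrix p * mapGL ℝ g = mapGL ℝ g' * heckeDiagMatrix p := by
  have hdet := det_eq g
  refine ⟨⟨!![g 0 0, p * g 0 1; e, g 1 1], ?_⟩, rfl, rfl, ?_⟩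
  · rw [Matrix.det_fin_two_of]
    linear_combination hdet + (g 0 1) * he
  · ext i j
    fin_cases i <;> fin_cases j <;>
      simp [hp, Matrix.mul_apply, Fin.sum_univ_two]
    all_goals first
      | (have := congrArg (Int.cast : ℤ → ℝ) he; push_cast at this ⊢; linear_combination this)
      | (have := congrArg (Int.cast : ℤ → ℝ) he; push_cast at this ⊢; linear_combination -this)
      | ring1

end commutation

/-- port of `HSI.heckeMatrix_mul_of_dvd`. -/
theorem hm_mul_of_dvd {p : ℕ} [NeZero p] (g : SL(2, ℤ)) (hc : (p : ℤ) ∣ g 1 0)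
    (x : ZMod p) :
    ∃ g' : SL(2, ℤ), g' 1 0 = p * g 1 0 ∧ (∃ t : ℤ, g' 1 1 = g 1 1 - g 1 0 * t) ∧
      heckeMatrix p x.val * mapGL ℝ g =
        mapGL ℝ g' *
          heckeMatrix p (affinePerm g ((ZMod.intCast_zmod_eq_zero_iff_dvd _ _).mpr hc) x).val := by
  have hc0 : ((g 1 0 : ℤ) : ZMod p) = 0 := (ZMod.intCast_zmod_eq_zero_iff_dvd _ _).mpr hc
  set x' := affinePerm g hc0 x with hx'
  obtain ⟨e, he⟩ : (p : ℤ) ∣ g 0 1 + x.val * g 1 1 - x'.val * (g 0 0 + x.val * g 1 0) := by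
    rw [← ZMod.intCast_zmod_eq_zero_iff_dvd]
    push_cast
    rw [ZMod.natCast_zmod_val, ZMod.natCast_zmod_val, hx', affinePerm_apply]
    linear_combination (-(((g 0 1 : ℤ) : ZMod p) + x * ((g 1 1 : ℤ) : ZMod p))) *
      unit_of_apply_one_zero_eq_zero g hc0
      - (((g 1 1 : ℤ) : ZMod p) * (((g 0 1 : ℤ) : ZMod p) + ((g 1 1 : ℤ) : ZMod p) * x) * x) * hc0
  obtain ⟨g', h1, h2, h3⟩ :=
    hm_mul_of_eq (NeZero.ne p) g x.val x'.val e (by linear_combination he)
  exact ⟨g', h1, ⟨x'.val, h2⟩, h3⟩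

/-- the "weight" of a point of `ℙ¹(𝔽_p)`: `p` at `∞`, `1` elsewhere. -/
def wt (N p : ℕ) (x : OnePoint (ZMod p)) : ZMod N := x.elim (p : ZMod N) (fun _ => 1)

@[simp] theorem wt_infty (N p : ℕ) : wt N p ∞ = (p : ZMod N) := rfl

@[simp] theorem wt_coe (N p : ℕ) (j : ZMod p) : wt N p (j : OnePoint (ZMod p)) = 1 := rfl

/-- port of `HSI.heckeRep_mul`. -/
theorem hr_mul {p : ℕ} [Fact p.Prime] {N : ℕ} (hpN : ¬ p ∣ N) (g : SL(2, ℤ))
    (hg : (N : ℤ) ∣ g 1 0) (x : OnePoint (ZMod p)) :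
    ∃ g' : SL(2, ℤ), (N : ℤ) ∣ g' 1 0 ∧
      wt N p x * ((g' 1 1 : ℤ) : ZMod N) = ((g 1 1 : ℤ) : ZMod N) * wt N p (redMatrix p g • x) ∧
      heckeRep p x * mapGL ℝ g = mapGL ℝ g' * heckeRep p (redMatrix p g • x) := by
  have hp : p ≠ 0 := (Fact.out : p.Prime).ne_zero
  have hg0 : ((g 1 0 : ℤ) : ZMod N) = 0 := (ZMod.intCast_zmod_eq_zero_iff_dvd _ _).mpr hg
  induction x using OnePoint.rec with
  | infty =>
    rw [OnePoint.smul_infty_eq_ite]
    by_cases hc : ((g 1 0 : ℤ) : ZMod p) = 0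
    · rw [if_pos (by simpa using hc), heckeRep_infty]
      obtain ⟨e, he⟩ := (ZMod.intCast_zmod_eq_zero_iff_dvd _ _).mp hc
      obtain ⟨g', hg', hd', hmul⟩ := hd_mul_of_eq' hp g e he
      refine ⟨g', ?_, ?_, hmul⟩
      · rw [hg']
        have hcop : IsCoprime (N : ℤ) (p : ℤ) :=
          Nat.isCoprime_iff_coprime.mpr ((Nat.Prime.coprime_iff_not_dvd Fact.out).mpr hpN).symm
        exact hcop.dvd_of_dvd_mul_left (he ▸ hg)
      · rw [hd', wt_infty, mul_comm]
    · rw [if_neg (by simpa using hc), heckeRep_infty, heckeRep_coe]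
      set y : ZMod p := redMatrix p g 0 0 / redMatrix p g 1 0
        with hy
      obtain ⟨e, he⟩ : (p : ℤ) ∣ g 1 1 - g 1 0 * y.val := by
        rw [← ZMod.intCast_zmod_eq_zero_iff_dvd]
        push_cast
        rw [ZMod.natCast_zmod_val, hy, redMatrix_apply_zero_zero, redMatrix_apply_one_zero,
          mul_div_cancel₀ _ hc, sub_self]
      obtain ⟨g', hg', hd', hmul⟩ := hd_mul_of_eq hp g y.val e (by linear_combination he)
      refine ⟨g', hg' ▸ hg, ?_, hmul⟩
      rw [hd', wt_infty, wt_coe, mul_one]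
      have := congrArg (Int.cast : ℤ → ZMod N) he
      push_cast at this
      rw [hg0, zero_mul, sub_zero] at this
      exact this.symm
  | coe j =>
    rw [OnePoint.smul_some_eq_ite]
    by_cases h : redMatrix p g 1 0 * j + redMatrix p g 1 1 = 0
    · rw [if_pos h, heckeRep_infty, heckeRep_coe]
      rw [redMatrix_apply_one_zero, redMatrix_apply_one_one] at h
      obtain ⟨e, he⟩ : (p : ℤ) ∣ g 0 0 + j.val * g 1 0 := by
        rw [← ZMod.intCast_zmod_eq_zero_iff_dvd]
        push_cast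
        rw [ZMod.natCast_zmod_val]
        linear_combination h
      obtain ⟨g', hg', hd', hmul⟩ := hm_mul_of_eq' hp g j.val e he
      refine ⟨g', hg' ▸ hg, ?_, hmul⟩
      rw [hd', wt_infty, wt_coe, one_mul]
      push_cast
      ring
    · rw [if_neg h, heckeRep_coe, heckeRep_coe]
      set y : ZMod p := (redMatrix p g 0 0 * j + redMatrix p g 0 1) /
        (redMatrix p g 1 0 * j + redMatrix p g 1 1) with hy
      obtain ⟨e, he⟩ : (p : ℤ) ∣ g 0 1 + j.val * g 1 1 - y.val * (g 0 0 + j.val * g 1 0) := by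
        rw [← ZMod.intCast_zmod_eq_zero_iff_dvd]
        push_cast
        rw [ZMod.natCast_zmod_val, ZMod.natCast_zmod_val,
          show ((g 0 0 : ℤ) : ZMod p) + j * ((g 1 0 : ℤ) : ZMod p)
            = redMatrix p g 1 0 * j + redMatrix p g 1 1 by
              rw [redMatrix_apply_one_zero, redMatrix_apply_one_one]; ring,
          hy, div_mul_cancel₀ _ h, redMatrix_apply_zero_zero, redMatrix_apply_zero_one]
        ring
      obtain ⟨g', hg', hd', hmul⟩ := hm_mul_of_eq hp g j.val y.val e (by linear_combination he)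
      refine ⟨g', hg' ▸ dvd_mul_of_dvd_right hg _, ?_, hmul⟩
      rw [hd', wt_coe, wt_coe, one_mul, mul_one]
      push_cast
      rw [hg0, zero_mul, sub_zero]

end Fermat.Agent.S48.Hecke
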