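import Fermat.Agent.S48.Hecke.Inv
import Fermat.Agent.S48.Hecke.Mat

/-!
# S48-HECKE : `V_p` is linear, injective, and commutes with the diamond operators
-/

set_option autoImplicit false

open CongruenceSubgroup UpperHalfPlane ModularForm Matrix.SpecialLinearGroup
open scoped MatrixGroups ModularForm Manifold

namespace Fermat.Agent.S48.Hecke

variable {N : ℕ} {k : ℤ} {φ ψ : ℍ → ℂ} {p : ℕ}

theorem V_add (k : ℤ) (p : ℕ) (φ ψ : ℍ → ℂ) : V k p (φ + ψ) = V k p φ + V k p ψ := by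
  simp only [V, SlashAction.add_slash]

theorem V_sub (k : ℤ) (p : ℕ) (φ ψ : ℍ → ℂ) : V k p (φ - ψ) = V k p φ - V k p ψ := by
  simp only [V, sub_eq_add_neg, SlashAction.add_slash, SlashAction.neg_slash]

/-- [`ModularForm.smul_slash`, `ModularForm.σ_heckeDiagMatrix`.] -/
theorem V_smul (k : ℤ) (p : ℕ) (c : ℂ) (φ : ℍ → ℂ) : V k p (c • φ) = c • V k p φ := by
  simp only [V]
  rw [ModularForm.smul_slash, σ_heckeDiagMatrix, ContinuousAlgEquiv.refl_apply]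

/-- [slash by the inverse matrix.] -/
theorem V_injective (k : ℤ) (p : ℕ) {φ : ℍ → ℂ} (h : V k p φ = 0) : φ = 0 := by
  have h1 : (V k p φ) ∣[k] (heckeDiagMatrix p)⁻¹ = φ := by
    rw [V, ← SlashAction.slash_mul, mul_inv_cancel, SlashAction.slash_one]
  rw [← h1, h, SlashAction.zero_slash]

theorem Gamma0_le_of_dvd {M N : ℕ} (h : N ∣ M) : Gamma0 M ≤ Gamma0 N := by
  intro γ hγ
  rw [Gamma0_mem, ZMod.intCast_zmod_eq_zero_iff_dvd] at hγ ⊢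
  exact (Int.natCast_dvd_natCast.mpr h).trans hγ

/-- the general commutation: for `τ ∈ Γ₀(N p)` there is `τ' ∈ Γ₀(N)` with the same lower right entry
and `(V φ) ∣ τ = V (φ ∣ τ')`, for EVERY function `φ`.  [`hd_mul_of_eq'`.] -/
theorem V_slash_exists (hp : p ≠ 0) {τ : SL(2, ℤ)} (hτ : τ ∈ Gamma0 (N * p)) :
    ∃ τ' : SL(2, ℤ), τ' ∈ Gamma0 N ∧ τ' 1 1 = τ 1 1 ∧
      ∀ (k : ℤ) (φ : ℍ → ℂ), (V k p φ) ∣[k] τ = V k p (φ ∣[k] τ') := by
  rw [Gamma0_mem, ZMod.intCast_zmod_eq_zero_iff_dvd] at hτ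
  obtain ⟨e, he⟩ := hτ
  obtain ⟨τ', h1, h2, h3⟩ := hd_mul_of_eq' hp τ (N * e) (by rw [he]; push_cast; ring)
  refine ⟨τ', ?_, h2, fun k φ => ?_⟩
  · rw [Gamma0_mem, ZMod.intCast_zmod_eq_zero_iff_dvd, h1]
    exact dvd_mul_right _ _
  · change (φ ∣[k] heckeDiagMatrix p) ∣[k] (mapGL ℝ τ) =
      (φ ∣[k] (mapGL ℝ τ')) ∣[k] heckeDiagMatrix p
    rw [← SlashAction.slash_mul, h3, SlashAction.slash_mul]

/-- [`V_slash_exists`, `Inv1.slash_eq_of_eq`.] -/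
theorem V_slash (hp : p ≠ 0) {τ : SL(2, ℤ)} (hτ : τ ∈ Gamma0 (N * p)) (h : Inv1 N k φ) :
    (V k p φ) ∣[k] τ = V k p (φ ∣[k] τ) := by
  obtain ⟨τ', h1, h2, h3⟩ := V_slash_exists (N := N) hp hτ
  rw [h3, h.slash_eq_of_eq h1 (Gamma0_le_of_dvd (dvd_mul_right N p) hτ) (by rw [h2])]

/-- [`c = N p`, `d = p + N` are coprime; Bezout (`Int.isCoprime_iff_gcd_eq_one`,
`IsCoprime`): `a d - b c = 1`.] -/
theorem exists_sigma (hp : p.Prime) (hpN : ¬ p ∣ N) :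
    ∃ σ : SL(2, ℤ), σ ∈ Gamma0 (N * p) ∧ ((σ 1 1 : ℤ) : ZMod N) = (p : ZMod N) := by
  have hpN' : Nat.Coprime p N := (Nat.Prime.coprime_iff_not_dvd hp).mpr hpN
  have hcop : Nat.Coprime (p + N) (N * p) := by
    refine Nat.Coprime.mul_right ?_ ?_
    · simpa using hpN'
    · simpa using hpN'.symm
  have hcop' : IsCoprime ((p + N : ℕ) : ℤ) ((N * p : ℕ) : ℤ) := Nat.isCoprime_iff_coprime.mpr hcop
  obtain ⟨a, b, hab⟩ := hcop'
  refine ⟨⟨!![a, -b; ((N * p : ℕ) : ℤ), ((p + N : ℕ) : ℤ)], ?_⟩, ?_, ?_⟩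
  · rw [Matrix.det_fin_two_of]
    linear_combination hab
  · rw [Gamma0_mem]
    have : (((N * p : ℕ) : ℤ) : ZMod (N * p)) = 0 := by
      rw [Int.cast_natCast, ZMod.natCast_self]
    simpa using this
  · simp

end Fermat.Agent.S48.Hecke
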