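import Mathlib
import Fermat.Agent.S48.Iface
import Fermat.Prelude.Def_ModularForm_HeckeOperator
import Fermat.Prelude.Def_FLTPrelim_Modularity

/-!
# S48-HECKE : definitions (everything is done on the level of FUNCTIONS `ℍ → ℂ`)

* `IsCuspFn k φ` : `φ` is holomorphic on `ℍ` and vanishes at every rational cusp (weight `k`).
* `Inv1 N k φ`   : `φ ∣[k] γ = φ` for all `γ ∈ Γ₁(N)`.
* `IsS N k φ`    : both, i.e. `φ` is (the function of) a cusp form of weight `k` on `Γ₁(N)`.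
* `IsQ φ`        : `φ` is `1`-periodic, holomorphic and bounded at `i∞` (so it has a `q`-expansion).
* `V k p φ = φ ∣[k] heckeDiagMatrix p = p^(k-1) φ(p z)`; `heckeU k p φ` is the one of the Prelude.
-/

set_option autoImplicit false

open CongruenceSubgroup UpperHalfPlane ModularForm
open scoped MatrixGroups ModularForm Manifold

namespace Fermat.Agent.S48.Hecke

/-- holomorphic on `ℍ`, vanishing at every rational cusp. -/
structure IsCuspFn (k : ℤ) (φ : ℍ → ℂ) : Prop where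
  holo : MDiff φ
  zero : ∀ c : OnePoint ℝ, IsCusp c 𝒮ℒ → c.IsZeroAt φ k

/-- invariance under `Γ₁(N)`. -/
def Inv1 (N : ℕ) (k : ℤ) (φ : ℍ → ℂ) : Prop :=
  ∀ γ : SL(2, ℤ), γ ∈ Gamma1 N → φ ∣[k] γ = φ

/-- `φ` is the function of a cusp form of weight `k` on `Γ₁(N)`. -/
structure IsS (N : ℕ) (k : ℤ) (φ : ℍ → ℂ) : Prop where
  cusp : IsCuspFn k φ
  inv : Inv1 N k φ

/-- `φ` has a `q`-expansion in `q = e^{2πiz}`. -/
structure IsQ (φ : ℍ → ℂ) : Prop where
  per : Function.Periodic (φ ∘ UpperHalfPlane.ofComplex) 1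
  holo : MDiff φ
  bdd : IsBoundedAtImInfty φ

/-- `V_p` in weight `k` : `(V k p φ)(z) = p^(k-1) φ(p z)`. -/
noncomputable def V (k : ℤ) (p : ℕ) (φ : ℍ → ℂ) : ℍ → ℂ := φ ∣[k] heckeDiagMatrix p

/-- the twisted Hecke operator `T_p = U_p + V_p ⟨p⟩`, `⟨p⟩ = ∣ σ`. -/
noncomputable def T (k : ℤ) (p : ℕ) (σ : SL(2, ℤ)) (φ : ℍ → ℂ) : ℍ → ℂ :=
  heckeU k p φ + V k p (φ ∣[k] σ)

end Fermat.Agent.S48.Hecke
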