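import Fermat.Agent.S48.Hecke.Comm

/-!
# S48-HECKE : `U_q` (`q ∣ M`) and `V_q` on functions with nebentypus

`NebZ N ε M k φ` : `φ ∣[k] γ = ε(d mod N) φ` for `γ = (a b; c d) ∈ Γ₀(M)`; here `ε : ZMod N → ℂ` is any
function and (in the lemmas) `N ∣ M`.
-/

set_option autoImplicit false

open CongruenceSubgroup UpperHalfPlane ModularForm Matrix.SpecialLinearGroup
open scoped MatrixGroups ModularForm Manifold
open P2MW.S_ModularForm_heckeT_slash_eq_self_of_mem_Gamma0.ModularForm.HeckeSlashInvariance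

namespace Fermat.Agent.S48.Hecke

/-- nebentypus `ε` (a function on `ZMod N`) at level `M`. -/
def NebZ (N : ℕ) (ε : ZMod N → ℂ) (M : ℕ) (k : ℤ) (φ : ℍ → ℂ) : Prop :=
  ∀ γ : SL(2, ℤ), γ ∈ Gamma0 M → φ ∣[k] γ = ε ((γ 1 1 : ℤ) : ZMod N) • φ

variable {N : ℕ} {ε : ZMod N → ℂ} {M : ℕ} {k : ℤ} {φ ψ : ℍ → ℂ}

theorem NebZ.sub (h : NebZ N ε M k φ) (h' : NebZ N ε M k ψ) : NebZ N ε M k (φ - ψ) := by
  intro γ hγ
  rw [sub_eq_add_neg, SlashAction.add_slash, SlashAction.neg_slash, h γ hγ, h' γ hγ, smul_add,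
    smul_neg]

/-- raising the level. -/
theorem NebZ.mono (h : NebZ N ε M k φ) {M' : ℕ} (hM : M ∣ M') : NebZ N ε M' k φ :=
  fun γ hγ => h γ (Gamma0_le_of_dvd hM hγ)

/-- [`γ 1 1 ≡ 1 mod M`, hence `mod N`.] -/
theorem NebZ.inv1 (hNM : N ∣ M) (h1 : ε 1 = 1) (h : NebZ N ε M k φ) : Inv1 M k φ := by
  intro γ hγ
  obtain ⟨-, h11, h10⟩ := (Gamma1_mem M γ).1 hγ
  have hd : ((γ 1 1 : ℤ) : ZMod N) = 1 := by
    have := congrArg (ZMod.castHom hNM (ZMod N)) h11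
    rwa [map_intCast, map_one] at this
  rw [h γ (Gamma0_mem.2 h10), hd, h1, one_smul]

/-- [as `HSI.heckeU_slash_mapGL`, with `hm_mul_of_dvd`: `g' ∈ Γ₀(M)`, `g' 1 1 ≡ g 1 1 mod M`, hence
`mod N`; `ModularForm.smul_slash` + `ModularForm.σ_heckeMatrix` to pull the scalar out.] -/
theorem NebZ.heckeU (hNM : N ∣ M) {q : ℕ} (hq0 : q ≠ 0) (hq : q ∣ M) (h : NebZ N ε M k φ) :
    NebZ N ε M k (heckeU k q φ) := by
  have : NeZero q := ⟨hq0⟩
  intro g hg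
  have hcM : (M : ℤ) ∣ g 1 0 :=
    (ZMod.intCast_zmod_eq_zero_iff_dvd _ _).mp (Gamma0_mem.mp hg)
  have hc : (q : ℤ) ∣ g 1 0 := (Int.natCast_dvd_natCast.mpr hq).trans hcM
  have hcN : ((g 1 0 : ℤ) : ZMod N) = 0 :=
    (ZMod.intCast_zmod_eq_zero_iff_dvd _ _).mpr ((Int.natCast_dvd_natCast.mpr hNM).trans hcM)
  change ModularForm.heckeU k q φ ∣[k] (mapGL ℝ g) = _
  rw [heckeU_eq_sum_zmod k φ, SlashAction.sum_slash]
  calc ∑ x : ZMod q, (φ ∣[k] heckeMatrix q x.val) ∣[k] mapGL ℝ g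
      = ∑ x : ZMod q, ε ((g 1 1 : ℤ) : ZMod N) • (φ ∣[k] heckeMatrix q
          (affinePerm g ((ZMod.intCast_zmod_eq_zero_iff_dvd _ _).mpr hc) x).val) := by
        refine Finset.sum_congr rfl fun x _ ↦ ?_
        obtain ⟨g', hg', ⟨t, ht⟩, hmul⟩ := hm_mul_of_dvd g hc x
        have hg'M : g' ∈ Gamma0 M := by
          rw [Gamma0_mem, hg']
          push_cast
          rw [Gamma0_mem.mp hg, mul_zero]
        have hd : ((g' 1 1 : ℤ) : ZMod N) = ((g 1 1 : ℤ) : ZMod N) := by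
          rw [ht]
          push_cast
          rw [hcN, zero_mul, sub_zero]
        have hφ : φ ∣[k] (mapGL ℝ g') = ε ((g 1 1 : ℤ) : ZMod N) • φ := by
          rw [← hd]
          exact h g' hg'M
        rw [← SlashAction.slash_mul, hmul, SlashAction.slash_mul, hφ, ModularForm.smul_slash,
          σ_heckeMatrix, ContinuousAlgEquiv.refl_apply]
    _ = ε ((g 1 1 : ℤ) : ZMod N) • ∑ x : ZMod q, φ ∣[k] heckeMatrix q x.val := by
        rw [← Finset.smul_sum]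
        congr 1
        exact Equiv.sum_comp (affinePerm g _) (fun x ↦ φ ∣[k] heckeMatrix q x.val)

/-- [`V_slash_exists`, `V_smul`.] -/
theorem NebZ.V {q : ℕ} (hq0 : q ≠ 0) (h : NebZ N ε M k φ) : NebZ N ε (M * q) k (V k q φ) := by
  intro γ hγ
  obtain ⟨τ', h1, h2, h3⟩ := V_slash_exists (N := M) hq0 hγ
  rw [h3, h τ' h1, h2, V_smul]

end Fermat.Agent.S48.Hecke
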