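import Fermat.Agent.S48.Hecke.Basic

/-!
# S48-HECKE : `Γ₁(N)`-invariant functions and the action of `Γ₀(N)` (diamond operators)
-/

set_option autoImplicit false

open CongruenceSubgroup UpperHalfPlane ModularForm
open scoped MatrixGroups ModularForm Manifold

namespace Fermat.Agent.S48.Hecke

variable {N : ℕ} {k : ℤ} {φ ψ : ℍ → ℂ}

theorem Inv1.add (h : Inv1 N k φ) (h' : Inv1 N k ψ) : Inv1 N k (φ + ψ) := by
  intro γ hγ
  rw [SlashAction.add_slash, h γ hγ, h' γ hγ]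

theorem Inv1.smul (c : ℂ) (h : Inv1 N k φ) : Inv1 N k (c • φ) := by
  intro γ hγ
  rw [ModularForm.SL_smul_slash, h γ hγ]

theorem Inv1.sub (h : Inv1 N k φ) (h' : Inv1 N k ψ) : Inv1 N k (φ - ψ) := by
  have := h.add (h'.smul (-1))
  simpa [sub_eq_add_neg] using this

/-- the lower right entry is multiplicative on `Γ₀(N)`. -/
theorem Gamma0_mul_apply_one_one {γ γ' : SL(2, ℤ)} (hγ : γ ∈ Gamma0 N) :
    ((((γ * γ') 1 1 : ℤ)) : ZMod N) = ((γ 1 1 : ℤ) : ZMod N) * ((γ' 1 1 : ℤ) : ZMod N) := by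
  rw [Gamma0_mem] at hγ
  rw [Matrix.SpecialLinearGroup.coe_mul, Matrix.mul_apply, Fin.sum_univ_two]
  push_cast
  rw [hγ, zero_mul, zero_add]

/-- `γ ∈ Γ₀(N)` with `d ≡ 1` is in `Γ₁(N)`. -/
theorem mem_Gamma1_of_mem_Gamma0 {γ : SL(2, ℤ)} (hγ : γ ∈ Gamma0 N)
    (hd : ((γ 1 1 : ℤ) : ZMod N) = 1) : γ ∈ Gamma1 N := by
  rw [Gamma0_mem] at hγ
  rw [Gamma1_mem]
  refine ⟨?_, hd, hγ⟩
  have h := congrArg (Int.cast : ℤ → ZMod N) γ.det_coe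
  rw [Matrix.det_fin_two] at h
  push_cast at h
  rw [hd, hγ, mul_one, mul_zero, sub_zero] at h
  exact h

/-- `a d ≡ 1 mod N` on `Γ₀(N)`. -/
theorem Gamma0_apply_mul_apply {γ : SL(2, ℤ)} (hγ : γ ∈ Gamma0 N) :
    ((γ 0 0 : ℤ) : ZMod N) * ((γ 1 1 : ℤ) : ZMod N) = 1 := by
  rw [Gamma0_mem] at hγ
  have h := congrArg (Int.cast : ℤ → ZMod N) γ.det_coe
  rw [Matrix.det_fin_two] at h
  push_cast at h
  rw [hγ, mul_zero, sub_zero] at h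
  exact h

/-- `φ ∣ γ` depends only on `d mod N`.  [`γ * γ'⁻¹ ∈ Γ₁(N)`.] -/
theorem Inv1.slash_eq_of_eq (h : Inv1 N k φ) {γ γ' : SL(2, ℤ)} (hγ : γ ∈ Gamma0 N)
    (hγ' : γ' ∈ Gamma0 N) (hd : ((γ 1 1 : ℤ) : ZMod N) = ((γ' 1 1 : ℤ) : ZMod N)) :
    φ ∣[k] γ = φ ∣[k] γ' := by
  have hmem : γ * γ'⁻¹ ∈ Gamma1 N := by
    refine mem_Gamma1_of_mem_Gamma0 (mul_mem hγ (inv_mem hγ')) ?_
    rw [Gamma0_mul_apply_one_one hγ, hd]
    have h1 := Gamma0_mul_apply_one_one (γ' := γ'⁻¹) hγ'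
    rw [mul_inv_cancel] at h1
    simpa using h1.symm
  have h2 := h _ hmem
  calc φ ∣[k] γ = φ ∣[k] (γ * γ'⁻¹ * γ') := by rw [inv_mul_cancel_right]
    _ = φ ∣[k] γ' := by rw [SlashAction.slash_mul, h2]

/-- `Γ₁(N)` is normal in `Γ₀(N)`. -/
theorem Inv1.slash (h : Inv1 N k φ) {γ : SL(2, ℤ)} (hγ : γ ∈ Gamma0 N) :
    Inv1 N k (φ ∣[k] γ) := by
  intro δ hδ
  rw [← SlashAction.slash_mul]
  refine h.slash_eq_of_eq (mul_mem hγ (Gamma1_in_Gamma0 N hδ)) hγ ?_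
  rw [Gamma0_mul_apply_one_one hγ, ((Gamma1_mem N δ).1 hδ).2.1, mul_one]

/-- [`ModularGroup.T ∈ Γ₁(N)`; e.g. bundle `φ` as a `SlashInvariantForm (Gamma1 N) k` and use
`SlashInvariantFormClass.periodic_comp_ofComplex` and
`Subgroup.strictPeriods_eq_zmultiples_one_of_T_mem`.] -/
theorem Inv1.periodic (h : Inv1 N k φ) :
    Function.Periodic (φ ∘ UpperHalfPlane.ofComplex) 1 := by
  have hT : ModularGroup.T ∈ Gamma1 N := by
    rw [Gamma1_mem]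
    simp [ModularGroup.coe_T]
  have h1 : (1 : ℝ) ∈ (Gamma1 N : Subgroup (GL (Fin 2) ℝ)).strictPeriods := by
    rw [Subgroup.strictPeriods_eq_zmultiples_one_of_T_mem hT]
    exact AddSubgroup.mem_zmultiples 1
  let F : SlashInvariantForm (Gamma1 N : Subgroup (GL (Fin 2) ℝ)) k :=
    { toFun := φ
      slash_action_eq' := by
        rintro _ ⟨γ, hγ, rfl⟩
        exact h γ hγ }
  have := SlashInvariantFormClass.periodic_comp_ofComplex F h1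
  intro x
  have h2 := this x
  simp only [Complex.ofReal_one] at h2
  exact h2

theorem one_mem_strictPeriods_Gamma1 (N : ℕ) :
    (1 : ℝ) ∈ (Gamma1 N : Subgroup (GL (Fin 2) ℝ)).strictPeriods := by
  have hT : ModularGroup.T ∈ Gamma1 N := by
    rw [Gamma1_mem]
    simp [ModularGroup.coe_T]
  rw [Subgroup.strictPeriods_eq_zmultiples_one_of_T_mem hT]
  exact AddSubgroup.mem_zmultiples 1

theorem IsS.isQ (h : IsS N k φ) : IsQ φ :=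
  ⟨h.inv.periodic, h.cusp.holo, h.cusp.isZeroAtImInfty.boundedAtFilter⟩

theorem IsS.add (h : IsS N k φ) (h' : IsS N k ψ) : IsS N k (φ + ψ) :=
  ⟨h.cusp.add h'.cusp, h.inv.add h'.inv⟩

theorem IsS.sub (h : IsS N k φ) (h' : IsS N k ψ) : IsS N k (φ - ψ) :=
  ⟨h.cusp.sub h'.cusp, h.inv.sub h'.inv⟩

theorem IsS.smul (c : ℂ) (h : IsS N k φ) : IsS N k (c • φ) :=
  ⟨h.cusp.smul c, h.inv.smul c⟩

theorem IsS.slash (h : IsS N k φ) {γ : SL(2, ℤ)} (hγ : γ ∈ Gamma0 N) : IsS N k (φ ∣[k] γ) :=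
  ⟨h.cusp.slash_SL γ, h.inv.slash hγ⟩

end Fermat.Agent.S48.Hecke
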