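import Fermat.Agent.S48.Hecke.Inv
import Fermat.Prelude.Thm_ModularForm_sturm_bound_of_isArithmetic

/-!
# S48-HECKE : Sturm bound on `Γ₁(N)`, function level
-/

set_option autoImplicit false

open CongruenceSubgroup UpperHalfPlane ModularForm ModularFormClass
open scoped MatrixGroups ModularForm Manifold

namespace Fermat.Agent.S48.Hecke

/-- [`IsS.exists_cuspForm`, coerce the cusp form to a `ModularForm` (`ModularFormClass.modularForm`),
`ModularForm.sturm_bound_of_isArithmetic` (Prelude) with `one_mem_strictPeriods_Gamma1`;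
`B = (k * relIndex).toNat / 12`; `PowerSeries.order` is `> B` if the coefficients `≤ B` vanish
(`PowerSeries.nat_le_order` / `PowerSeries.le_order`).] -/
theorem sturm (N : ℕ) [NeZero N] (k : ℤ) :
    ∃ B : ℕ, ∀ φ : ℍ → ℂ, IsS N k φ → (∀ m ≤ B, qCoeff φ m = 0) → φ = 0 := by
  refine ⟨(k * (Gamma1 N : Subgroup (GL (Fin 2) ℝ)).relIndex 𝒮ℒ).toNat / 12, fun φ h h0 => ?_⟩
  obtain ⟨f, rfl⟩ := h.exists_cuspForm
  set B := (k * (Gamma1 N : Subgroup (GL (Fin 2) ℝ)).relIndex 𝒮ℒ).toNat / 12 with hB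
  have hord : ((B : ℕ) : ℕ∞) < (qExpansion 1 (ModularFormClass.modularForm f)).order := by
    have h1 : ((B + 1 : ℕ) : ℕ∞) ≤ (qExpansion 1 (ModularFormClass.modularForm f)).order :=
      PowerSeries.nat_le_order _ _ fun i hi => h0 i (Nat.lt_succ_iff.mp hi)
    refine lt_of_lt_of_le ?_ h1
    exact_mod_cast Nat.lt_succ_self B
  have := ModularForm.sturm_bound_of_isArithmetic (f := ModularFormClass.modularForm f)
    (one_mem_strictPeriods_Gamma1 N) hord
  have h2 := congrArg (fun g : ModularForm (Gamma1 N : Subgroup (GL (Fin 2) ℝ)) k => (g : ℍ → ℂ)) this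
  simpa using h2

end Fermat.Agent.S48.Hecke
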