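import Fermat.Agent.S48.Hecke.Tp
import Fermat.Agent.S48.Hecke.Comm
import Fermat.Agent.S48.Hecke.QExp2
import Fermat.Agent.S48.Hecke.Sturm

/-!
# S48-HECKE : the key lemma: `h ∈ S_k(Γ₁(N))`, `V_p h ∈ S_k(Γ₁(N))`, `p ∤ N`  ⟹  `h = 0`

`S' = {h ∈ S : V h ∈ S}`.
(a) `S'` is stable under `∣ τ`, `τ ∈ Γ₀(N p)`          (`V_slash`);
(b) `h ∈ S' ⟹ V (h ∣ σ) ∈ S'`   : `V (h∣σ) = (V h) ∣ σ ∈ S` and
    `T (V h) = U V h + V ((V h) ∣ σ) = p^(k-1) h + V (V (h ∣ σ))`, so `V (V (h ∣ σ)) ∈ S`;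
(c) `h ∈ S' ⟹ V h ∈ S'`         : apply (b) to `h ∣ σ⁻¹ ∈ S'`;
(d) `V^n h ∈ S` for all `n`, its `q`-expansion starts at `q^(p^n)`: Sturm.
-/

set_option autoImplicit false

open CongruenceSubgroup UpperHalfPlane ModularForm ModularFormClass
open scoped MatrixGroups ModularForm Manifold

namespace Fermat.Agent.S48.Hecke

variable {N : ℕ} {k : ℤ} {φ : ℍ → ℂ} {p : ℕ}

/-- `S'`. -/
structure IsS' (N : ℕ) (k : ℤ) (p : ℕ) (φ : ℍ → ℂ) : Prop where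
  mem : IsS N k φ
  memV : IsS N k (V k p φ)

/-- (a) -/
theorem IsS'.slash (hp : p ≠ 0) (h : IsS' N k p φ) {τ : SL(2, ℤ)} (hτ : τ ∈ Gamma0 (N * p)) :
    IsS' N k p (φ ∣[k] τ) := by
  have hτ0 : τ ∈ Gamma0 N := Gamma0_le_of_dvd (Dvd.intro p rfl) hτ
  refine ⟨h.mem.slash hτ0, ?_⟩
  rw [← Hecke.V_slash hp hτ h.mem.inv]
  exact h.memV.slash hτ0

/-- (b) -/
theorem IsS'.V_slash (hp : p.Prime) (hpN : ¬ p ∣ N) (h : IsS' N k p φ) {σ : SL(2, ℤ)}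
    (hσ : σ ∈ Gamma0 (N * p)) (hσp : ((σ 1 1 : ℤ) : ZMod N) = (p : ZMod N)) :
    IsS' N k p (V k p (φ ∣[k] σ)) := by
  have hσ0 : σ ∈ Gamma0 N := Gamma0_le_of_dvd (Dvd.intro p rfl) hσ
  have e1 : Hecke.V k p (φ ∣[k] σ) = (Hecke.V k p φ) ∣[k] σ :=
    (Hecke.V_slash hp.ne_zero hσ h.mem.inv).symm
  have hT : IsS N k (T k p σ (Hecke.V k p φ)) := h.memV.T hp hpN hσ0 hσp
  have e2 : Hecke.V k p (Hecke.V k p (φ ∣[k] σ)) =
      T k p σ (Hecke.V k p φ) - (p : ℂ) ^ (k - 1) • φ := by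
    rw [Hecke.T, heckeU_V h.mem.isQ k hp.ne_zero, ← e1, add_sub_cancel_left]
  refine ⟨?_, ?_⟩
  · rw [e1]
    exact h.memV.slash hσ0
  · rw [e2]
    exact hT.sub (h.mem.smul _)

/-- (c) -/
theorem IsS'.V (hp : p.Prime) (hpN : ¬ p ∣ N) (h : IsS' N k p φ) : IsS' N k p (V k p φ) := by
  obtain ⟨σ, hσ, hσp⟩ := exists_sigma hp hpN
  have h1 : IsS' N k p (φ ∣[k] σ⁻¹) := h.slash hp.ne_zero (inv_mem hσ)
  have h2 := h1.V_slash hp hpN hσ hσp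
  rwa [← SlashAction.slash_mul, inv_mul_cancel, SlashAction.slash_one] at h2

/-- (d) -/
theorem IsS'.iterate (hp : p.Prime) (hpN : ¬ p ∣ N) (h : IsS' N k p φ) (n : ℕ) :
    IsS' N k p ((Hecke.V k p)^[n] φ) := by
  induction n with
  | zero => exact h
  | succ n ih =>
    rw [Function.iterate_succ_apply']
    exact ih.V hp hpN

/-- **Key lemma.** [`sturm`, `qCoeff_iterate_V` with `B < p ^ n` (e.g. `n = B + 1`,
`Nat.lt_pow_self`), `V_injective` iterated.] -/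
theorem key [NeZero N] (hp : p.Prime) (hpN : ¬ p ∣ N) (h : IsS N k φ) (hV : IsS N k (V k p φ)) :
    φ = 0 := by
  obtain ⟨B, hB⟩ := sturm N k
  have hS' : IsS' N k p φ := ⟨h, hV⟩
  have h0 : qCoeff φ 0 = 0 := qCoeff_zero_of_isZeroAtImInfty h.isQ h.cusp.isZeroAtImInfty
  have hz : (Hecke.V k p)^[B + 1] φ = 0 := by
    refine hB _ (hS'.iterate hp hpN (B + 1)).mem fun m hm => ?_
    have hlt : m < p ^ (B + 1) :=
      lt_of_le_of_lt hm (lt_trans (Nat.lt_succ_self B) (Nat.lt_pow_self hp.one_lt))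
    exact (qCoeff_iterate_V h.isQ h0 k hp.ne_zero (B + 1) m hlt).2
  have hinj : ∀ n : ℕ, (Hecke.V k p)^[n] φ = 0 → φ = 0 := by
    intro n
    induction n with
    | zero => exact fun e => e
    | succ n ih =>
      intro e
      rw [Function.iterate_succ_apply'] at e
      exact ih (V_injective k p e)
  exact hinj _ hz

end Fermat.Agent.S48.Hecke
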