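import Fermat.Agent.S48.Hecke.Defs
import Fermat.Prelude.Thm_UpperHalfPlane_qCoeff_heckeT
import Fermat.Prelude.Thm_UpperHalfPlane_qCoeff_heckeU
import Fermat.Prelude.Thm_ModularForm_periodic_heckeT_comp_ofComplex
import Fermat.Prelude.Thm_ModularForm_periodic_heckeU_comp_ofComplex
import Fermat.Prelude.Thm_ModularForm_mdifferentiable_heckeT
import Fermat.Prelude.Thm_ModularForm_mdifferentiable_heckeU
import Fermat.Prelude.Thm_ModularForm_isBoundedAtImInfty_heckeT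
import Fermat.Prelude.Thm_ModularForm_isBoundedAtImInfty_heckeU

/-!
# S48-HECKE : `q`-expansions on the level of functions

`ModularFormClass.qCoeff φ n = (qExpansion 1 φ).coeff n` (Prelude).  Mathlib:
`UpperHalfPlane.qExpansion_add/_smul/_sub`, `analyticAt_cuspFunction_zero`, `hasSum_qExpansion`,
`qExpansion_eq_zero_iff` (all on the level of functions).  Prelude: `UpperHalfPlane.qCoeff_heckeU`,
`UpperHalfPlane.qCoeff_heckeT`, `ModularForm.periodic_heckeU_comp_ofComplex`, ...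
`V k p φ = heckeT k p φ - heckeU k p φ` (`ModularForm.heckeT_eq_heckeU_add`).
-/

set_option autoImplicit false

open CongruenceSubgroup UpperHalfPlane ModularForm ModularFormClass
open scoped MatrixGroups ModularForm Manifold

namespace Fermat.Agent.S48.Hecke

variable {k : ℤ} {φ ψ : ℍ → ℂ}

theorem IsQ.analytic (h : IsQ φ) : AnalyticAt ℂ (cuspFunction 1 φ) 0 :=
  analyticAt_cuspFunction_zero one_pos (by simpa using h.per) h.holo h.bdd

theorem IsQ.add (h : IsQ φ) (h' : IsQ ψ) : IsQ (φ + ψ) := by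
  refine ⟨fun x => ?_, h.holo.add h'.holo, h.bdd.add h'.bdd⟩
  have h1 := h.per x
  have h2 := h'.per x
  simp only [Function.comp_apply, Pi.add_apply] at h1 h2 ⊢
  rw [h1, h2]

theorem IsQ.smul (c : ℂ) (h : IsQ φ) : IsQ (c • φ) := by
  refine ⟨fun x => ?_, h.holo.const_smul c, h.bdd.const_smul_left c⟩
  have h1 := h.per x
  simp only [Function.comp_apply, Pi.smul_apply] at h1 ⊢
  rw [h1]

theorem IsQ.sub (h : IsQ φ) (h' : IsQ ψ) : IsQ (φ - ψ) := by
  have := h.add (h'.smul (-1))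
  simpa [sub_eq_add_neg] using this

theorem IsQ.heckeU (h : IsQ φ) (k : ℤ) (p : ℕ) : IsQ (heckeU k p φ) :=
  ⟨periodic_heckeU_comp_ofComplex h.per k p, mdifferentiable_heckeU h.holo k p,
    isBoundedAtImInfty_heckeU h.bdd k p⟩

theorem IsQ.heckeT (h : IsQ φ) (k : ℤ) (p : ℕ) : IsQ (heckeT k p φ) :=
  ⟨periodic_heckeT_comp_ofComplex h.per k p, mdifferentiable_heckeT h.holo k p,
    isBoundedAtImInfty_heckeT h.bdd k p⟩

theorem V_eq_heckeT_sub (k : ℤ) (p : ℕ) (φ : ℍ → ℂ) : V k p φ = heckeT k p φ - heckeU k p φ := by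
  rw [heckeT_eq_heckeU_add, add_sub_cancel_left]
  rfl

theorem IsQ.V (h : IsQ φ) (k : ℤ) (p : ℕ) : IsQ (V k p φ) := by
  rw [V_eq_heckeT_sub]
  exact (h.heckeT k p).sub (h.heckeU k p)

theorem qCoeff_add (h : IsQ φ) (h' : IsQ ψ) (n : ℕ) :
    qCoeff (φ + ψ) n = qCoeff φ n + qCoeff ψ n := by
  simp only [qCoeff]
  rw [qExpansion_add h.analytic h'.analytic, map_add]

theorem qCoeff_smul (c : ℂ) (h : IsQ φ) (n : ℕ) : qCoeff (c • φ) n = c * qCoeff φ n := by
  simp only [qCoeff]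
  rw [qExpansion_smul h.analytic, PowerSeries.coeff_smul, smul_eq_mul]

theorem qCoeff_sub (h : IsQ φ) (h' : IsQ ψ) (n : ℕ) :
    qCoeff (φ - ψ) n = qCoeff φ n - qCoeff ψ n := by
  simp only [qCoeff]
  rw [qExpansion_sub h.analytic h'.analytic, map_sub]

theorem qCoeff_heckeU (h : IsQ φ) (k : ℤ) {p : ℕ} (hp : p ≠ 0) (n : ℕ) :
    qCoeff (heckeU k p φ) n = qCoeff φ (n * p) := by
  rw [UpperHalfPlane.qCoeff_heckeU h.per h.holo h.bdd k hp n, coeffHeckeU_apply]

theorem qCoeff_V (h : IsQ φ) (k : ℤ) {p : ℕ} (hp : p ≠ 0) (n : ℕ) :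
    qCoeff (V k p φ) n = if p ∣ n then (p : ℂ) ^ (k - 1) * qCoeff φ (n / p) else 0 := by
  rw [V_eq_heckeT_sub, qCoeff_sub (h.heckeT k p) (h.heckeU k p),
    UpperHalfPlane.qCoeff_heckeT h.per h.holo h.bdd k hp n,
    UpperHalfPlane.qCoeff_heckeU h.per h.holo h.bdd k hp n, coeffHeckeT_apply, coeffHeckeU_apply,
    add_sub_cancel_left]

end Fermat.Agent.S48.Hecke
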