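import Fermat.Agent.S48.Hecke.Inv
import Fermat.Agent.S48.Hecke.Mat

/-!
# S48-HECKE : `T_p = U_p + V_p ⟨p⟩` preserves `S_k(Γ₁(N))`
-/

set_option autoImplicit false

open CongruenceSubgroup UpperHalfPlane ModularForm Matrix.SpecialLinearGroup
open scoped MatrixGroups ModularForm Manifold OnePoint
open P2MW.S_ModularForm_heckeT_slash_eq_self_of_mem_Gamma0.ModularForm.HeckeSlashInvariance

namespace Fermat.Agent.S48.Hecke

variable {N : ℕ} {k : ℤ} {φ : ℍ → ℂ} {p : ℕ}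

/-- `σ` at `∞`, `1` elsewhere. -/
def tw (p : ℕ) (σ : SL(2, ℤ)) (x : OnePoint (ZMod p)) : SL(2, ℤ) := x.elim σ (fun _ => 1)

/-- [as `HSI.heckeT_eq_sum_onePoint`: `HSI.heckeU_eq_sum_zmod`, `Fintype.sum_option`.] -/
theorem T_eq_sum_onePoint [NeZero p] (k : ℤ) (σ : SL(2, ℤ)) (φ : ℍ → ℂ) :
    T k p σ φ = ∑ x : OnePoint (ZMod p), (φ ∣[k] tw p σ x) ∣[k] heckeRep p x := by
  rw [Hecke.T, heckeU_eq_sum_zmod, add_comm]
  refine Eq.trans ?_ (Fintype.sum_option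
    (fun x : OnePoint (ZMod p) ↦ (φ ∣[k] tw p σ x) ∣[k] heckeRep p x)).symm
  congr 1
  refine Finset.sum_congr rfl fun x _ => ?_
  change _ = (φ ∣[k] (1 : SL(2, ℤ))) ∣[k] heckeMatrix p x.val
  rw [SlashAction.slash_one]

/-- [`hr_mul` gives `g'`; `tw p σ x * g'` and `tw p σ (redMatrix p g • x)` are in `Γ₀(N)` with
the same lower right entry mod `N` (`Gamma0_mul_apply_one_one`, `g 1 1 ≡ 1`): `Inv1.slash_eq_of_eq`.
`ModularForm.SL_slash`, `SlashAction.slash_mul`.] -/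
theorem slash_term [Fact p.Prime] (hpN : ¬ p ∣ N) {σ : SL(2, ℤ)} (hσ : σ ∈ Gamma0 N)
    (hσp : ((σ 1 1 : ℤ) : ZMod N) = (p : ZMod N)) (h : Inv1 N k φ) {g : SL(2, ℤ)}
    (hg : g ∈ Gamma1 N) (x : OnePoint (ZMod p)) :
    ((φ ∣[k] tw p σ x) ∣[k] heckeRep p x) ∣[k] g =
      (φ ∣[k] tw p σ (redMatrix p g • x)) ∣[k] heckeRep p (redMatrix p g • x) := by
  have hg0 : g ∈ Gamma0 N := Gamma1_in_Gamma0 N hg
  have hcN : (N : ℤ) ∣ g 1 0 := (ZMod.intCast_zmod_eq_zero_iff_dvd _ _).mp (Gamma0_mem.mp hg0)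
  obtain ⟨g', hg', hw, hmul⟩ := hr_mul hpN g hcN x
  have hg'N : g' ∈ Gamma0 N := Gamma0_mem.mpr ((ZMod.intCast_zmod_eq_zero_iff_dvd _ _).mpr hg')
  have htw : ∀ y : OnePoint (ZMod p), tw p σ y ∈ Gamma0 N ∧
      (((tw p σ y) 1 1 : ℤ) : ZMod N) = wt N p y := by
    intro y
    induction y using OnePoint.rec with
    | infty => exact ⟨hσ, hσp⟩
    | coe j => exact ⟨one_mem _, by simp [tw]⟩
  have key : (φ ∣[k] tw p σ x) ∣[k] g' = φ ∣[k] tw p σ (redMatrix p g • x) := by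
    rw [← SlashAction.slash_mul]
    refine h.slash_eq_of_eq (mul_mem (htw x).1 hg'N) (htw _).1 ?_
    rw [Gamma0_mul_apply_one_one (htw x).1, (htw x).2, (htw _).2, hw,
      ((Gamma1_mem N g).1 hg).2.1, one_mul]
  rw [← key]
  change ((φ ∣[k] tw p σ x) ∣[k] heckeRep p x) ∣[k] (mapGL ℝ g) =
    ((φ ∣[k] tw p σ x) ∣[k] (mapGL ℝ g')) ∣[k] heckeRep p (redMatrix p g • x)
  rw [← SlashAction.slash_mul, hmul, SlashAction.slash_mul]

/-- [sum over `x`, reindex by `MulAction.toPerm (redMatrix p g)` as in `HSI.heckeT_slash_mapGL`.] -/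
theorem Inv1.T (hp : p.Prime) (hpN : ¬ p ∣ N) {σ : SL(2, ℤ)} (hσ : σ ∈ Gamma0 N)
    (hσp : ((σ 1 1 : ℤ) : ZMod N) = (p : ZMod N)) (h : Inv1 N k φ) : Inv1 N k (T k p σ φ) := by
  haveI : Fact p.Prime := ⟨hp⟩
  intro g hg
  rw [T_eq_sum_onePoint k σ φ, SlashAction.sum_slash]
  calc ∑ x : OnePoint (ZMod p), ((φ ∣[k] tw p σ x) ∣[k] heckeRep p x) ∣[k] g
      = ∑ x : OnePoint (ZMod p),
          (φ ∣[k] tw p σ (redMatrix p g • x)) ∣[k] heckeRep p (redMatrix p g • x) :=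
        Finset.sum_congr rfl fun x _ ↦ slash_term hpN hσ hσp h hg x
    _ = ∑ x : OnePoint (ZMod p), (φ ∣[k] tw p σ x) ∣[k] heckeRep p x :=
        Equiv.sum_comp (MulAction.toPerm (redMatrix p g))
          (fun x ↦ (φ ∣[k] tw p σ x) ∣[k] heckeRep p x)

theorem IsS.T (hp : p.Prime) (hpN : ¬ p ∣ N) {σ : SL(2, ℤ)} (hσ : σ ∈ Gamma0 N)
    (hσp : ((σ 1 1 : ℤ) : ZMod N) = (p : ZMod N)) (h : IsS N k φ) : IsS N k (T k p σ φ) :=
  ⟨(h.cusp.heckeU p).add ((h.cusp.slash_SL σ).V p), h.inv.T hp hpN hσ hσp⟩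

end Fermat.Agent.S48.Hecke
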